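import Mathlib
import Fermat.Agent.S22.H75.Gamma0FG

/-!
# Program A, small leaf: finiteness of the set of characters of `Γ₀(N)`

For a finitely generated group `G` and a finite target, there are only finitely many
homomorphisms.  Applied to `G = Γ₀(N)` (finitely generated by the landed
`Fermat.Agent.S22.H75.fg_Gamma0`), this gives the finite set `X` of characters needed by
the pigeonhole step (RIG) of the descent `ℂ → ℚ̄`.
-/

namespace Fermat.Agent.S29.H28

open CongruenceSubgroup

/-- Finitely many monoid homs from a finitely generated group to a finite monoid. -/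
theorem finite_monoidHom_of_fg (G M : Type*) [Group G] [Group.FG G] [Monoid M] [Finite M] :
    Finite (G →* M) := by
  obtain ⟨S, hS, hSfin⟩ := Group.fg_iff.mp (inferInstance : Group.FG G)
  have : Finite S := hSfin
  refine Finite.of_injective (fun (f : G →* M) (s : S) => f s) ?_
  intro f g hfg
  refine MonoidHom.eq_of_eqOn_dense (s := S) hS ?_
  intro x hx
  exact congrFun hfg ⟨x, hx⟩

/-- Finitely many additive homs from (the additive copy of) a finitely generated group to
a finite additive group. -/
theorem finite_addMonoidHom_of_fg (G A : Type*) [Group G] [Group.FG G] [AddCommMonoid A]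
    [Finite A] : Finite (Additive G →+ A) := by
  have := finite_monoidHom_of_fg G (Multiplicative A)
  exact Finite.of_equiv (G →* Multiplicative A) MonoidHom.toAdditiveLeft

/-- `Γ₀(N)` has finitely many homs to a finite monoid. -/
theorem finite_gamma0_monoidHom (N : ℕ) [NeZero N] (M : Type*) [Monoid M] [Finite M] :
    Finite (↥(Gamma0 N) →* M) :=
  haveI := Fermat.Agent.S22.H75.fg_Gamma0 N
  finite_monoidHom_of_fg _ M

/-- `Γ₀(N)` has finitely many additive characters with values in a finite group, e.g.
`ZMod p`. -/
theorem finite_gamma0_addHom (N : ℕ) [NeZero N] (A : Type*) [AddCommMonoid A] [Finite A] :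
    Finite (Additive ↥(Gamma0 N) →+ A) :=
  haveI := Fermat.Agent.S22.H75.fg_Gamma0 N
  finite_addMonoidHom_of_fg _ A

/-- The set of `ZMod p`-valued characters of `Γ₀(N)` is finite (`p ≠ 0`). -/
theorem finite_gamma0_addHom_zmod (N : ℕ) [NeZero N] (p : ℕ) [NeZero p] :
    Finite (Additive ↥(Gamma0 N) →+ ZMod p) :=
  finite_gamma0_addHom N (ZMod p)

/-- The set of complex characters of `Γ₀(N)` of exponent `p` is finite: stated as
finiteness of the set of `χ : Γ₀(N) →* ℂˣ` with `χ ^ p = 1` pointwise. -/
theorem finite_gamma0_char_pow (N : ℕ) [NeZero N] (p : ℕ) [NeZero p] :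
    {χ : ↥(Gamma0 N) →* ℂˣ | ∀ γ, χ γ ^ p = 1}.Finite := by
  have := finite_gamma0_monoidHom N (rootsOfUnity p ℂ)
  have hfin : (Set.range fun f : ↥(Gamma0 N) →* rootsOfUnity p ℂ =>
      (Subgroup.subtype (rootsOfUnity p ℂ)).comp f).Finite := Set.finite_range _
  refine hfin.subset ?_
  intro χ hχ
  refine ⟨MonoidHom.codRestrict χ (rootsOfUnity p ℂ) (fun γ => ?_), ?_⟩
  · rw [mem_rootsOfUnity]
    exact hχ γ
  · ext γ
    rfl

end Fermat.Agent.S29.H28
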