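import Mathlib
import Fermat.Agent.S24.InfCenter
import Fermat.Agent.S24.Ker
import Fermat.Agent.S29.H15.HeckeChar
import Fermat.Agent.S42.H13.HeckeNorm

/-!
# Program A, leaf (HECKE), analytic dictionary (Theta form)

For `ℓ` prime, `ℓ ∤ N`, and `u = evF P / evF Q`, `normAB N ℓ u = evF P' / evF Q'` in the function
field `FF N`, the analytic realisations satisfy, pointwise on the whole upper half plane,

  `Θ(P') · heckeProd (Θ Q) = Θ(Q') · heckeProd (Θ P)`,

where `heckeProd N ℓ W τ = W (ℓ τ) · ∏_{j < ℓ} W ((τ + j) / ℓ)` (landed `S29/H15`).  In words: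
`Θ(N_α(β u)) = heckeProd (Θ u)`, cross-multiplied so that no meromorphic bookkeeping is needed.

Proof: the three families of functions `Θ(P)`, `Θ(P)(ℓ τ)`, `Θ(P)((τ + j)/ℓ)` have expansions at
`i∞` in the parameter `e^{2πiτ/ℓ}` given by `x(q^ℓ)`, `x(q^{ℓ²})`, `x(ζ₀^j q)` of the `q`-series
`x = evF P`; the formal identity is the landed `S42/H13` `qExpand_normAB`; conclude with the
identity theorem (`S24`).
-/

set_option autoImplicit false

open UpperHalfPlane Filter Topology ModularCurve CongruenceSubgroup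
open scoped MatrixGroups Manifold

noncomputable section

namespace Fermat.Agent.S29.H28

open Fermat.Agent.S24 Fermat.Agent.S24.H88 Fermat.Agent.S24.H59inf

/-! ### Generic: expansions of ring homomorphisms out of a polynomial ring -/

/-- Composition with a self-map of `ℍ`, as a ring homomorphism on functions. -/
def compHom (act : ℍ → ℍ) : (ℍ → ℂ) →+* (ℍ → ℂ) where
  toFun f := fun τ => f (act τ)
  map_one' := rfl
  map_mul' _ _ := rfl
  map_zero' := rfl
  map_add' _ _ := rfl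

@[simp] theorem compHom_apply (act : ℍ → ℍ) (f : ℍ → ℂ) (τ : ℍ) : compHom act f τ = f (act τ) :=
  rfl

/-- If two ring homomorphisms `T` (to functions) and `Ψ` (to Laurent series) out of a
polynomial ring are matched by `HasExp` on constants and variables, they are matched everywhere. -/
theorem hasExp_ringHom {σ : Type*} {𝔣 : Filter ℍ} {u : ℍ → ℂ} (hu : ∀ᶠ τ in 𝔣, u τ ≠ 0)
    (T : MvPolynomial σ Kbar →+* (ℍ → ℂ)) (Ψ : MvPolynomial σ Kbar →+* LaurentSeries ℂ)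
    (hC : ∀ a, HasExp 𝔣 u (T (MvPolynomial.C a)) (Ψ (MvPolynomial.C a)))
    (hX : ∀ d, HasExp 𝔣 u (T (MvPolynomial.X d)) (Ψ (MvPolynomial.X d)))
    (P : MvPolynomial σ Kbar) : HasExp 𝔣 u (T P) (Ψ P) := by
  induction P using MvPolynomial.induction_on with
  | C a => exact hC a
  | add p q hp hq =>
    rw [map_add, map_add]
    exact hp.add hq
  | mul_X p d hp =>
    rw [map_mul, map_mul]
    exact HasExp.mul hu hp (hX d)

/-- A point of `ℍ` is determined by its coordinate. -/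
theorem ofComplex_eq_of_coe {z : ℂ} {σ : ℍ} (h : z = (σ : ℂ)) : ofComplex z = σ := by
  subst h
  exact ofComplex_apply σ

/-- `x(ζ q^d) = x((ζ^d) q)(q^d)`: scaling commutes with `q ↦ q^d` up to a power. -/
theorem scaleHom_qExpand {C : Type*} [Field C] (ζ : Cˣ) (d : ℕ) [NeZero d] (L : LaurentSeries C) :
    scaleHom ζ (qExpand C d L) = qExpand C d (scaleHom (ζ ^ d) L) := by
  ext n
  by_cases hn : (d : ℤ) ∣ n
  · obtain ⟨k, rfl⟩ := hn
    rw [scaleHom_coeff, qExpand_coeff_mul, qExpand_coeff_mul, scaleHom_coeff]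
    congr 2
    rw [zpow_mul, zpow_natCast]
  · rw [scaleHom_coeff, qExpand_coeff_of_not_dvd d _ hn, qExpand_coeff_of_not_dvd d _ hn,
      mul_zero]

/-- The two landed versions of `q ↦ ζ q` agree. -/
theorem qScale_eq_scaleHom {C : Type*} [Field C] (ζ : Cˣ) (L : LaurentSeries C) :
    Fermat.Agent.S28.qScale ζ L = scaleHom ζ L := by
  ext n
  rfl

theorem mdiff_finset_prod {ι : Type*} (s : Finset ι) (f : ι → ℍ → ℂ)
    (h : ∀ i ∈ s, MDiff (f i)) : MDiff (fun τ => ∏ i ∈ s, f i τ) := by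
  classical
  induction s using Finset.induction_on with
  | empty =>
    simpa using (mdifferentiable_const : MDiff (fun _ : ℍ => (1 : ℂ)))
  | insert a s ha ih =>
    have h1 := h a (Finset.mem_insert_self a s)
    have h2 := ih fun i hi => h i (Finset.mem_insert_of_mem hi)
    have h3 := h1.mul h2
    have : (fun τ => ∏ i ∈ insert a s, f i τ) = f a * fun τ => ∏ i ∈ s, f i τ := by
      funext τ
      simp [Finset.prod_insert ha]
    rw [this]
    exact h3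

variable (N : ℕ) [NeZero N]

/-- The inclusion `FF N → ℚ̄((q))` as a ring homomorphism. -/
def valHom : FF N →+* LaurentSeries Kbar := (modularFunctionFieldBar N).val.toRingHom

@[simp] theorem valHom_apply (f : FF N) : valHom N f = (f : LaurentSeries Kbar) := rfl

/-- `P ↦ coeffMap iota (Φ (evF N P))`. -/
def serHom (Φ : LaurentSeries Kbar →+* LaurentSeries Kbar) :
    MvPolynomial (N.divisors) Kbar →+* LaurentSeries ℂ :=
  (coeffMap iota).comp (Φ.comp ((valHom N).comp (evF N).toRingHom))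

theorem serHom_apply (Φ : LaurentSeries Kbar →+* LaurentSeries Kbar)
    (P : MvPolynomial (N.divisors) Kbar) :
    serHom N Φ P = coeffMap iota (Φ ((evF N P : FF N) : LaurentSeries Kbar)) := rfl

theorem coe_evF_C (a : Kbar) :
    ((evF N (MvPolynomial.C a) : FF N) : LaurentSeries Kbar) = HahnSeries.C a := by
  have h : evF N (MvPolynomial.C a) = algebraMap Kbar (FF N) a := by
    rw [← MvPolynomial.algebraMap_eq, AlgHom.commutes]
  rw [h]
  show algebraMap Kbar (LaurentSeries Kbar) a = _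
  rw [algebraMap_laurentSeries_eq_single, HahnSeries.C_apply]

theorem coe_evF_X (d : N.divisors) :
    ((evF N (MvPolynomial.X d) : FF N) : LaurentSeries Kbar)
      = qExpand Kbar (d : ℕ) (jqModC Kbar) := by
  have h : evF N (MvPolynomial.X d) = jF N d := by simp [evF]
  rw [h, coe_jF]

/-- **Generic expansion of `Θ(P) ∘ act`**: it suffices to treat the generators `J_d`. -/
theorem hasExp_Theta_comp (ℓ : ℕ) (act : ℍ → ℍ)
    (Φ : LaurentSeries Kbar →+* LaurentSeries Kbar)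
    (hΦC : ∀ a : Kbar, Φ (HahnSeries.C a) = HahnSeries.C a)
    (hX : ∀ d : N.divisors, HasExp atImInfty (qN ℓ) (fun τ => Jd (d : ℕ) (act τ))
      (coeffMap iota (Φ (qExpand Kbar (d : ℕ) (jqModC Kbar)))))
    (P : MvPolynomial (N.divisors) Kbar) :
    HasExp atImInfty (qN ℓ) (fun τ => Theta N P (act τ))
      (coeffMap iota (Φ ((evF N P : FF N) : LaurentSeries Kbar))) := by
  have key := hasExp_ringHom (eventually_qN_ne_zero ℓ) ((compHom act).comp (Theta N))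
    (serHom N Φ) ?_ ?_ P
  · exact key
  · intro a
    rw [serHom_apply, coe_evF_C, hΦC, coeffMap_C]
    have : ((compHom act).comp (Theta N)) (MvPolynomial.C a) = fun _ => iota a := by
      funext τ
      simp [Theta_C]
    rw [this]
    exact HasExp.const _ _ _
  · intro d
    rw [serHom_apply, coe_evF_X]
    have : ((compHom act).comp (Theta N)) (MvPolynomial.X d) = fun τ => Jd (d : ℕ) (act τ) := by
      funext τ
      simp [Theta_X]
    rw [this]
    exact hX d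

/-! ### The three expansions in the parameter `e^{2πiτ/ℓ}` -/

/-- `Θ(P)` in the parameter `qN ℓ`: the series `x(q^ℓ)`. -/
theorem hasExp_Theta_id (ℓ : ℕ) [NeZero ℓ] (P : MvPolynomial (N.divisors) Kbar) :
    HasExp atImInfty (qN ℓ) (Theta N P)
      (coeffMap iota (qExpand Kbar ℓ ((evF N P : FF N) : LaurentSeries Kbar))) := by
  refine hasExp_Theta_comp N ℓ id (qExpand Kbar ℓ) (fun a => qExpand_C _ a) (fun d => ?_) P
  have h := hasExp_Jd ℓ (d : ℕ)
  rw [qExpand_qExpand]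
  exact h

/-- `Θ(P)(ℓ τ)` in the parameter `qN ℓ`: the series `x(q^{ℓ²})`. -/
theorem hasExp_Theta_diag (ℓ : ℕ) [NeZero ℓ] (P : MvPolynomial (N.divisors) Kbar) :
    HasExp atImInfty (qN ℓ) (fun τ => Theta N P (ModularForm.heckeDiagMatrix ℓ • τ))
      (coeffMap iota (qExpand Kbar (ℓ * ℓ) ((evF N P : FF N) : LaurentSeries Kbar))) := by
  have hℓ0 : ℓ ≠ 0 := NeZero.ne ℓ
  refine hasExp_Theta_comp N ℓ (fun τ => ModularForm.heckeDiagMatrix ℓ • τ)
    (qExpand Kbar (ℓ * ℓ)) (fun a => qExpand_C _ a) (fun d => ?_) P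
  have hd : 0 < (d : ℕ) := Nat.pos_of_ne_zero (NeZero.ne (d : ℕ))
  have h := hasExp_Jfun_affine ℓ ((d : ℕ) * ℓ) 0 1 (ℓ * ((d : ℕ) * ℓ))
    (Nat.mul_pos hd (Nat.pos_of_ne_zero hℓ0)) one_pos (by ring) 1 (by simp)
  rw [scaleHom_one] at h
  rw [qExpand_qExpand, qExpand_congr (show ℓ * ℓ * (d : ℕ) = ℓ * ((d : ℕ) * ℓ) by ring)]
  refine h.congr (Filter.Eventually.of_forall fun τ => ?_)
  show Jfun (ofComplex (((((d : ℕ) * ℓ : ℕ) : ℂ) * τ + ((0 : ℕ) : ℂ)) / ((1 : ℕ) : ℂ))) =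
    Jfun (levelMul (d : ℕ) (ModularForm.heckeDiagMatrix ℓ • τ))
  congr 1
  apply ofComplex_eq_of_coe
  rw [coe_levelMul, ModularForm.coe_heckeDiagMatrix_smul hℓ0]
  push_cast
  ring

/-- `Θ(P)((τ + j)/ℓ)` in the parameter `qN ℓ`: the series `x(ζ₀^j q)`, `ζ₀ = e^{2πi/ℓ}`. -/
theorem hasExp_Theta_heckeMatrix (ℓ : ℕ) [NeZero ℓ] (ζ₀ : Kbarˣ)
    (hζ₀ : iota (ζ₀ : Kbar) = Complex.exp (2 * Real.pi * Complex.I * (1 : ℕ) / ℓ)) (j : ℕ)
    (P : MvPolynomial (N.divisors) Kbar) :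
    HasExp atImInfty (qN ℓ) (fun τ => Theta N P (ModularForm.heckeMatrix ℓ j • τ))
      (coeffMap iota (scaleHom (ζ₀ ^ j) ((evF N P : FF N) : LaurentSeries Kbar))) := by
  have hℓ0 : ℓ ≠ 0 := NeZero.ne ℓ
  refine hasExp_Theta_comp N ℓ (fun τ => ModularForm.heckeMatrix ℓ j • τ)
    (scaleHom (ζ₀ ^ j)) (fun a => ?_) (fun d => ?_) P
  · ext n
    rw [scaleHom_coeff, HahnSeries.C_apply]
    by_cases hn : n = 0
    · subst hn; simp
    · rw [HahnSeries.coeff_single_of_ne hn, mul_zero]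
  have hd : 0 < (d : ℕ) := Nat.pos_of_ne_zero (NeZero.ne (d : ℕ))
  have hζ : iota ((ζ₀ ^ ((d : ℕ) * j) : Kbarˣ) : Kbar) =
      Complex.exp (2 * Real.pi * Complex.I * (((d : ℕ) * j : ℕ) : ℂ) / ℓ) := by
    rw [Units.val_pow_eq_pow_val, map_pow, hζ₀, ← Complex.exp_nat_mul]
    congr 1
    push_cast
    ring
  have h := hasExp_Jfun_affine ℓ (d : ℕ) ((d : ℕ) * j) ℓ (d : ℕ) hd
    (Nat.pos_of_ne_zero hℓ0) (mul_comm _ _) (ζ₀ ^ ((d : ℕ) * j)) hζ
  rw [scaleHom_qExpand, ← pow_mul, mul_comm j (d : ℕ)]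
  refine h.congr (Filter.Eventually.of_forall fun τ => ?_)
  show Jfun (ofComplex ((((d : ℕ) : ℂ) * τ + (((d : ℕ) * j : ℕ) : ℂ)) / (ℓ : ℂ))) =
    Jfun (levelMul (d : ℕ) (ModularForm.heckeMatrix ℓ j • τ))
  congr 1
  apply ofComplex_eq_of_coe
  rw [coe_levelMul, ModularForm.coe_heckeMatrix_smul hℓ0]
  push_cast
  ring

/-! ### The dictionary -/

/-- Cross-multiplied form of the formal Hecke-norm identity. -/
theorem cross_of_div {K : Type*} [Field K] (ℓ : ℕ) [NeZero ℓ] (ζ : Kˣ)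
    (a b a' b' : LaurentSeries K) (hb : b ≠ 0) (hb' : b' ≠ 0)
    (h : qExpand K ℓ (a' / b') = qExpand K (ℓ * ℓ) (a / b) *
      ∏ k ∈ Finset.range ℓ, Fermat.Agent.S28.qScale (ζ ^ k) (a / b)) :
    qExpand K ℓ a' * (qExpand K (ℓ * ℓ) b * ∏ k ∈ Finset.range ℓ, scaleHom (ζ ^ k) b)
      = qExpand K ℓ b' * (qExpand K (ℓ * ℓ) a * ∏ k ∈ Finset.range ℓ, scaleHom (ζ ^ k) a) := by
  simp only [qScale_eq_scaleHom, map_div₀, Finset.prod_div_distrib] at h
  have h1 : qExpand K ℓ b' ≠ 0 := (map_ne_zero _).mpr hb'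
  have h2 : qExpand K (ℓ * ℓ) b ≠ 0 := (map_ne_zero _).mpr hb
  have h3 : ∏ k ∈ Finset.range ℓ, scaleHom (ζ ^ k) b ≠ 0 :=
    Finset.prod_ne_zero_iff.mpr fun k _ => (map_ne_zero _).mpr hb
  field_simp at h
  linear_combination h

/-- **Analytic dictionary, from the formal identity.**  If the `q`-series of `u' = evF P'/evF Q'`
and `u = evF P/evF Q` satisfy `u'(q^ℓ) = u(q^{ℓ²}) ∏_{b<ℓ} u(ζ^b q)` for the primitive `ℓ`-th
roots of unity `ζ`, then `Θ(P') · heckeProd (Θ Q) = Θ(Q') · heckeProd (Θ P)` on `ℍ`. -/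
theorem theta_heckeProd_of_qExpand (ℓ : ℕ) [NeZero ℓ] (hℓ : ℓ.Prime) (hℓN : ¬ ℓ ∣ N)
    (P Q P' Q' : MvPolynomial (N.divisors) Kbar) (hQ : evF N Q ≠ 0) (hQ' : evF N Q' ≠ 0)
    (h : ∀ ζ : Kbarˣ, IsPrimitiveRoot ζ ℓ →
      qExpand Kbar ℓ ((evF N P' / evF N Q' : FF N) : LaurentSeries Kbar)
        = qExpand Kbar (ℓ * ℓ) ((evF N P / evF N Q : FF N) : LaurentSeries Kbar) *
          ∏ b ∈ Finset.range ℓ, Fermat.Agent.S28.qScale (ζ ^ b)
            ((evF N P / evF N Q : FF N) : LaurentSeries Kbar))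
    (τ : ℍ) :
    Theta N P' τ * Fermat.Agent.S29.H15.heckeProd N ⟨ℓ, hℓ⟩ (Theta N Q) τ
      = Theta N Q' τ * Fermat.Agent.S29.H15.heckeProd N ⟨ℓ, hℓ⟩ (Theta N P) τ := by
  classical
  have hℓ0 : ℓ ≠ 0 := hℓ.ne_zero
  obtain ⟨ζ₀, -, hζ₀⟩ := exists_iota_eq_exp 1 ℓ hℓ.pos
  have hprim : IsPrimitiveRoot ζ₀ ℓ := by
    have h1 : IsPrimitiveRoot (iota (ζ₀ : Kbar)) ℓ := by
      rw [hζ₀]
      have h2 := Complex.isPrimitiveRoot_exp ℓ hℓ0
      convert h2 using 2
      push_cast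
      ring
    exact IsPrimitiveRoot.coe_units_iff.mp
      (IsPrimitiveRoot.of_map_of_injective h1 iota.injective)
  have hform := h ζ₀ hprim
  have hb0 : ((evF N Q : FF N) : LaurentSeries Kbar) ≠ 0 := fun h0 => hQ (Subtype.ext h0)
  have hb'0 : ((evF N Q' : FF N) : LaurentSeries Kbar) ≠ 0 := fun h0 => hQ' (Subtype.ext h0)
  have e1 : ((evF N P' / evF N Q' : FF N) : LaurentSeries Kbar)
      = ((evF N P' : FF N) : LaurentSeries Kbar) / ((evF N Q' : FF N) : LaurentSeries Kbar) := rfl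
  have e2 : ((evF N P / evF N Q : FF N) : LaurentSeries Kbar)
      = ((evF N P : FF N) : LaurentSeries Kbar) / ((evF N Q : FF N) : LaurentSeries Kbar) := rfl
  rw [e1, e2] at hform
  have hcross := cross_of_div ℓ ζ₀ _ _ _ _ hb0 hb'0 hform
  have hu := eventually_qN_ne_zero ℓ
  have hE : ∀ (A B : MvPolynomial (N.divisors) Kbar),
      HasExp atImInfty (qN ℓ)
        (Theta N A * ((fun τ => Theta N B (ModularForm.heckeDiagMatrix ℓ • τ)) *
          fun τ => ∏ j ∈ (Finset.univ : Finset (Fin ℓ)),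
            Theta N B (ModularForm.heckeMatrix ℓ j • τ)))
        (coeffMap iota (qExpand Kbar ℓ ((evF N A : FF N) : LaurentSeries Kbar) *
          (qExpand Kbar (ℓ * ℓ) ((evF N B : FF N) : LaurentSeries Kbar) *
            ∏ k ∈ Finset.range ℓ,
              scaleHom (ζ₀ ^ k) ((evF N B : FF N) : LaurentSeries Kbar)))) := by
    intro A B
    have h1 := hasExp_Theta_id N ℓ A
    have h2 := hasExp_Theta_diag N ℓ B
    have h3 := hasExp_finset_prod hu (Finset.univ : Finset (Fin ℓ))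
      (fun j τ => Theta N B (ModularForm.heckeMatrix ℓ j • τ))
      (fun j => coeffMap iota (scaleHom (ζ₀ ^ (j : ℕ)) ((evF N B : FF N) : LaurentSeries Kbar)))
      (fun j _ => hasExp_Theta_heckeMatrix N ℓ ζ₀ hζ₀ j B)
    have h4 := HasExp.mul hu h1 (HasExp.mul hu h2 h3)
    rw [map_mul, map_mul, map_prod, ← Fin.prod_univ_eq_prod_range (fun k =>
      coeffMap iota (scaleHom (ζ₀ ^ k) ((evF N B : FF N) : LaurentSeries Kbar)))]
    exact h4
  have hM : ∀ (A B : MvPolynomial (N.divisors) Kbar),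
      MDiff (Theta N A * ((fun τ => Theta N B (ModularForm.heckeDiagMatrix ℓ • τ)) *
          fun τ => ∏ j ∈ (Finset.univ : Finset (Fin ℓ)),
            Theta N B (ModularForm.heckeMatrix ℓ j • τ))) := by
    intro A B
    refine (mdiff_Theta N A).mul (MDifferentiable.mul ?_ ?_)
    · exact (mdiff_Theta N B).comp
        (mdifferentiable_smul (ModularForm.det_heckeDiagMatrix_pos ℓ))
    · exact mdiff_finset_prod _ _ fun j _ => (mdiff_Theta N B).comp
        (mdifferentiable_smul (ModularForm.det_heckeMatrix_pos ℓ j))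
  have h5 := hE Q' P
  rw [← hcross] at h5
  have hEq := eq_of_eventuallyEq_atImInfty (hM P' Q) (hM Q' P)
    (eventuallyEq_of_hasExp (hE P' Q) h5)
  have h6 := congrFun hEq τ
  rw [Fermat.Agent.S29.H15.heckeProd_of_not_dvd' (ℓ := ⟨ℓ, hℓ⟩) hℓN,
    Fermat.Agent.S29.H15.heckeProd_of_not_dvd' (ℓ := ⟨ℓ, hℓ⟩) hℓN]
  exact h6

/-- **(HECKE), Theta form**: `Θ(N_α(β u)) = heckeProd (Θ u)`, cross-multiplied.  If
`evF P' / evF Q' = normAB N ℓ (evF P / evF Q)` (`ℓ` prime, `ℓ ∤ N`), then on all of `ℍ`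
`Θ(P') · heckeProd (Θ Q) = Θ(Q') · heckeProd (Θ P)`. -/
theorem theta_normAB (ℓ : ℕ) [NeZero ℓ] (hℓ : ℓ.Prime) (hℓN : ¬ ℓ ∣ N)
    (P Q P' Q' : MvPolynomial (N.divisors) Kbar) (hQ : evF N Q ≠ 0) (hQ' : evF N Q' ≠ 0)
    (h : evF N P' / evF N Q' = Fermat.Agent.S42.H13.normAB N ℓ (evF N P / evF N Q)) (τ : ℍ) :
    Theta N P' τ * Fermat.Agent.S29.H15.heckeProd N ⟨ℓ, hℓ⟩ (Theta N Q) τ
      = Theta N Q' τ * Fermat.Agent.S29.H15.heckeProd N ⟨ℓ, hℓ⟩ (Theta N P) τ :=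
  theta_heckeProd_of_qExpand N ℓ hℓ hℓN P Q P' Q' hQ hQ' (fun ζ hζ => by
    rw [h]
    exact Fermat.Agent.S42.H13.qExpand_normAB N ℓ hℓ hℓN ζ hζ _) τ

/-- The same with `ℓ : Nat.Primes` (the binder shape of `heckeProd`, `heckeHom` and of the landed
`S42/H13` `heckeOperatorBar_mk_of_smul_eq_div`). -/
theorem theta_normAB_primes (ℓ : Nat.Primes) (hℓN : ¬ (ℓ : ℕ) ∣ N)
    (P Q P' Q' : MvPolynomial (N.divisors) Kbar) (hQ : evF N Q ≠ 0) (hQ' : evF N Q' ≠ 0)
    (h : haveI : NeZero (ℓ : ℕ) := ⟨ℓ.2.ne_zero⟩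
      evF N P' / evF N Q' = Fermat.Agent.S42.H13.normAB N (ℓ : ℕ) (evF N P / evF N Q)) (τ : ℍ) :
    Theta N P' τ * Fermat.Agent.S29.H15.heckeProd N ℓ (Theta N Q) τ
      = Theta N Q' τ * Fermat.Agent.S29.H15.heckeProd N ℓ (Theta N P) τ :=
  haveI : NeZero (ℓ : ℕ) := ⟨ℓ.2.ne_zero⟩
  theta_normAB N (ℓ : ℕ) ℓ.2 hℓN P Q P' Q' hQ hQ' h τ

end Fermat.Agent.S29.H28
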