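import Fermat.Agent.S29.H28.ThetaHecke

/-!
# Program A, leaf (HECKE): the Hecke product of a `p`-th root

If `W` is holomorphic on `ℍ` with `W^p · Θ(B) = c · Θ(A)` (a `p`-th root of `c · Θ(A)/Θ(B)`), and
`evF A' / evF B' = normAB N ℓ (evF A / evF B)` with `ℓ ∤ N`, then the Hecke product
`heckeProd N ℓ W` satisfies `(heckeProd W)^p · Θ(B') = c^(ℓ+1) · Θ(A')`: it is a `p`-th root of
`c^(ℓ+1) · Θ(N_α(β u))`.  Together with the landed multiplier statement `H15.heckeProd_smul`, a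
Kummer datum `(u, W, ψ)` is sent to the Kummer datum `(normAB u, heckeProd W, heckeHom ψ)`.
-/

set_option autoImplicit false

open UpperHalfPlane Filter Topology ModularCurve CongruenceSubgroup
open scoped MatrixGroups Manifold

noncomputable section

namespace Fermat.Agent.S29.H28

open Fermat.Agent.S24 Fermat.Agent.S29.H15 Fermat.Agent.S16.H75

variable (N : ℕ)

theorem det_famT_pos (ℓ : ℕ) (i : Option (Fin ℓ)) : 0 < ((famT ℓ i).det : ℝ) := by
  cases i with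
  | none => exact ModularForm.det_heckeDiagMatrix_pos ℓ
  | some j => exact ModularForm.det_heckeMatrix_pos ℓ j

/-- The Hecke product (`ℓ ∤ N`) of a holomorphic function is holomorphic. -/
theorem mdiff_heckeProd {ℓ : Nat.Primes} (hℓN : ¬ (ℓ : ℕ) ∣ N) {W : ℍ → ℂ} (hW : MDiff W) :
    MDiff (heckeProd N ℓ W) := by
  have h : heckeProd N ℓ W = fun τ => ∏ i ∈ (Finset.univ : Finset (Option (Fin ℓ))),
      W (famT ℓ i • τ) := by
    funext τ
    rw [heckeProd_of_not_dvd hℓN]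
  rw [h]
  exact mdiff_finset_prod _ _ fun i _ => hW.comp (mdifferentiable_smul (det_famT_pos ℓ i))

/-- The Hecke product (`ℓ ∤ N`) of a nonzero holomorphic function is nonzero. -/
theorem heckeProd_ne_zero {ℓ : Nat.Primes} (hℓN : ¬ (ℓ : ℕ) ∣ N) {W : ℍ → ℂ} (hW : MDiff W)
    (hW0 : W ≠ 0) : heckeProd N ℓ W ≠ 0 := by
  intro h0
  have h : ∏ i ∈ (Finset.univ : Finset (Option (Fin ℓ))), (fun τ => W (famT ℓ i • τ)) = 0 := by
    funext τ
    rw [Finset.prod_apply, ← heckeProd_of_not_dvd hℓN, h0]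
  obtain ⟨i, -, hi⟩ := (UpperHalfPlane.prod_eq_zero_iff
    (fun i _ => hW.comp (mdifferentiable_smul (det_famT_pos ℓ i)))).mp h
  apply hW0
  funext σ
  have := congrFun hi ((famT ℓ i)⁻¹ • σ)
  simpa [smul_inv_smul] using this

variable [NeZero N]

/-- **(H-root)**: the Hecke product of a `p`-th root of `c · Θ(A)/Θ(B)` is a `p`-th root of
`c^(ℓ+1) · Θ(A')/Θ(B')`, where `evF A'/evF B' = N_α(β (evF A/evF B))`. -/
theorem heckeProd_pow (ℓ : Nat.Primes) (hℓN : ¬ (ℓ : ℕ) ∣ N)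
    (A B A' B' : MvPolynomial (N.divisors) Kbar) (hB : evF N B ≠ 0) (hB' : evF N B' ≠ 0)
    (h : haveI : NeZero (ℓ : ℕ) := ⟨ℓ.2.ne_zero⟩
      evF N A' / evF N B' = Fermat.Agent.S42.H13.normAB N (ℓ : ℕ) (evF N A / evF N B))
    {W : ℍ → ℂ} (hW : MDiff W) {p : ℕ} {c : ℂ}
    (hWp : ∀ τ, W τ ^ p * Theta N B τ = c * Theta N A τ) (τ : ℍ) :
    heckeProd N ℓ W τ ^ p * Theta N B' τ = c ^ ((ℓ : ℕ) + 1) * Theta N A' τ := by
  have key : ∀ τ, heckeProd N ℓ W τ ^ p * heckeProd N ℓ (Theta N B) τ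
      = c ^ ((ℓ : ℕ) + 1) * heckeProd N ℓ (Theta N A) τ := by
    intro τ
    rw [heckeProd_of_not_dvd hℓN, heckeProd_of_not_dvd hℓN, heckeProd_of_not_dvd hℓN,
      ← Finset.prod_pow, ← Finset.prod_mul_distrib,
      Finset.prod_congr rfl (fun i _ => hWp (famT ℓ i • τ)), Finset.prod_mul_distrib,
      Finset.prod_const, Finset.card_univ, Fintype.card_option, Fintype.card_fin]
  have hHB : MDiff (heckeProd N ℓ (Theta N B)) := mdiff_heckeProd N hℓN (mdiff_Theta N B)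
  have hHB0 : heckeProd N ℓ (Theta N B) ≠ 0 :=
    heckeProd_ne_zero N hℓN (mdiff_Theta N B) fun h0 => hB ((Theta_eq_zero_iff N B).mp h0)
  have hF : MDiff (heckeProd N ℓ W ^ p * Theta N B'
      - (fun _ => c ^ ((ℓ : ℕ) + 1) : ℍ → ℂ) * Theta N A' : ℍ → ℂ) :=
    (((mdiff_heckeProd N hℓN hW).pow p).mul (mdiff_Theta N B')).sub
      (mdifferentiable_const.mul (mdiff_Theta N A'))
  have hmul : (heckeProd N ℓ W ^ p * Theta N B'
      - (fun _ => c ^ ((ℓ : ℕ) + 1) : ℍ → ℂ) * Theta N A' : ℍ → ℂ)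
      * heckeProd N ℓ (Theta N B) = 0 := by
    funext σ
    have h1 := key σ
    have h2 := theta_normAB_primes N ℓ hℓN A B A' B' hB hB' h σ
    simp only [Pi.mul_apply, Pi.sub_apply, Pi.pow_apply, Pi.zero_apply]
    linear_combination Theta N B' σ * h1 - c ^ ((ℓ : ℕ) + 1) * h2
  rcases (UpperHalfPlane.mul_eq_zero_iff hF hHB).mp hmul with h0 | h0
  · have := congrFun h0 τ
    simp only [Pi.mul_apply, Pi.sub_apply, Pi.pow_apply, Pi.zero_apply] at this
    exact sub_eq_zero.mp this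
  · exact absurd h0 hHB0

end Fermat.Agent.S29.H28
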